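/-
Fermat/Agent/MAZ/TorsCmp40/CurveHypOmega.lean  (helper40)

Programme MAZ (S15), brick U6 TORS-CMP, part (T2): the torsion of the Picard group of the hub curve
over an algebraically closed field `Ω` is the torsion of `Pic0` of its function field.

`c0 : TwoChart W B0 B1 B01` any two-chart datum which is finite projective over the line
(`hfp : c0.FiniteProjOverLine`), `Ω` an algebraically closed field over `W` such that the charts
`Ω ⊗[W] B0`, `Ω ⊗[W] B1` of `X_Ω` are Dedekind domains and the overlap `Ω ⊗[W] B01` is a domain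
(instances; delivered for `Ω = ℚ̄_p` by part (T1) CURVE-Ω).

* `finiteType0`, `finiteType1` : the charts of `X_Ω` are `Ω`-algebras of finite type;
* `not_isField0`, `not_isField1` : they are not fields;
* **`curveHyp`** : `AbelJacobi73.CurveHyp (c0.baseChange Ω)` (the hypotheses of the algebraic
  Abel--Jacobi / Riemann--Roch package of the JAC and AV programmes);
* `picXEquiv` : `PicX c0 Ω ≃* PicQ (c0.baseChange Ω)` (T1's hub Picard group is helper73's);
* **`card_torsion_picX`** : for a function field `F` of `X_Ω` (fraction field of both charts) whose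
  places are all centred on one of the two charts (`hcov`) and have degree one (`hdeg`):
  `Nat.card {η : PicX c0 Ω // η ^ n = 1} = Nat.card (Pic0.torsion Ω F n)`   (`0 < n`);
* `card_torsion_additive` : the same count for `{x : Additive (PicX c0 Ω) // n • x = 0}`
  (the shape of `T1B/Local66/Union.Atop`);
* `picXToPic0`, `picXToPic0_injective` … : the inverse of `pic0Map` on torsion is not needed by the
  count and is not constructed.
-/
import Mathlib
import Fermat.Agent.AV.PicBridge84.Torsion
import Fermat.Agent.Jac.BridgeK84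
import Fermat.Agent.Jac.Cover12.FieldCover
import Fermat.Agent.Jac.CurveHyp80.Algebra
import Fermat.Agent.T1.RedIface75

set_option autoImplicit false
set_option linter.unusedSectionVars false
set_option linter.style.haveILetI false

open TensorProduct Polynomial AlgebraicCurve

namespace Fermat.Agent.MAZ.TorsCmp40

open Fermat.Agent.Jac Fermat.Agent.Jac.BaseChange75 Fermat.Agent.Jac.JGroup85Pic
open Fermat.Agent.Jac.AbelJacobi73 Fermat.Agent.T1.RedIface75
open Fermat.Agent.AV.PicBridge84.Places
open scoped Fermat.Agent.Jac.BaseChange75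

universe u

variable {W B0 B1 B01 : Type u} [CommRing W] [CommRing B0] [CommRing B1] [CommRing B01]
  [Algebra W B0] [Algebra W B1] [Algebra W B01] [Algebra B0 B01] [Algebra B1 B01]
  [IsScalarTower W B0 B01] [IsScalarTower W B1 B01]
  (c0 : TwoChart W B0 B1 B01)
  (Ω : Type u) [Field Ω] [Algebra W Ω]

/-! ### Finite type, not a field -/

section Basic

variable {c0}

/-- Chart `0` of `X_Ω` is of finite type over `Ω`. -/
theorem finiteType0 (hfp : c0.FiniteProjOverLine) : Algebra.FiniteType Ω (Ω ⊗[W] B0) :=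
  haveI := (hfp.baseChange Ω).fin0
  CurveHyp80.finiteType (k := Ω) (c0.baseChange Ω).t

/-- Chart `1` of `X_Ω` is of finite type over `Ω`. -/
theorem finiteType1 (hfp : c0.FiniteProjOverLine) : Algebra.FiniteType Ω (Ω ⊗[W] B1) :=
  haveI := (hfp.baseChange Ω).fin1
  CurveHyp80.finiteType (k := Ω) (c0.baseChange Ω).s

/-- Chart `0` of `X_Ω` is not a field. -/
theorem not_isField0 [Nontrivial (Ω ⊗[W] B0)] (hfp : c0.FiniteProjOverLine) :
    ¬ IsField (Ω ⊗[W] B0) := by
  haveI := (hfp.baseChange Ω).fin0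
  haveI := (hfp.baseChange Ω).proj0
  haveI : Module.Free (Polynomial Ω) (Module.AEval Ω (Ω ⊗[W] B0) (c0.baseChange Ω).t) :=
    inferInstance
  exact CurveHyp80.not_isField (k := Ω) (c0.baseChange Ω).t

/-- Chart `1` of `X_Ω` is not a field. -/
theorem not_isField1 [Nontrivial (Ω ⊗[W] B1)] (hfp : c0.FiniteProjOverLine) :
    ¬ IsField (Ω ⊗[W] B1) := by
  haveI := (hfp.baseChange Ω).fin1
  haveI := (hfp.baseChange Ω).proj1
  haveI : Module.Free (Polynomial Ω) (Module.AEval Ω (Ω ⊗[W] B1) (c0.baseChange Ω).s) :=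
    inferInstance
  exact CurveHyp80.not_isField (k := Ω) (c0.baseChange Ω).s

end Basic

/-! ### `CurveHyp` -/

section Hyp

variable {c0} [IsAlgClosed Ω]
  [IsDedekindDomain (Ω ⊗[W] B0)] [IsDedekindDomain (Ω ⊗[W] B1)] [IsDomain (Ω ⊗[W] B01)]

/-- **The hypotheses of the algebraic Abel--Jacobi package hold for `X_Ω`**, `Ω` algebraically
closed, as soon as the two-chart datum is finite projective over the line and the charts of `X_Ω`
are Dedekind domains with a domain as overlap. -/
theorem curveHyp (hfp : c0.FiniteProjOverLine) : CurveHyp (c0.baseChange Ω) := by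
  haveI := finiteType0 (c0 := c0) Ω hfp
  haveI := finiteType1 (c0 := c0) Ω hfp
  exact ⟨not_isField0 Ω hfp, not_isField1 Ω hfp,
    fun m hm => CurveHyp80.quotient_surjective m hm,
    fun m hm => CurveHyp80.quotient_surjective m hm,
    fun L hL => Cover12.FieldCover.finCoh_of_isLine (c0.baseChange Ω) (hfp.baseChange Ω) hL⟩

end Hyp

/-! ### The two Picard groups -/

/-- T1's hub Picard group `PicX c0 Ω` is the Picard group `PicQ` of the JAC/AV programmes. -/
noncomputable def picXEquiv : PicX c0 Ω ≃* PicQ (c0.baseChange Ω) :=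
  BridgeK84.picEquiv (c0.baseChange Ω)

/-- `n`-torsion corresponds to `n`-torsion. -/
noncomputable def torsionEquiv (n : ℕ) :
    {η : PicX c0 Ω // η ^ n = 1} ≃ {η : PicQ (c0.baseChange Ω) // η ^ n = 1} where
  toFun η := ⟨picXEquiv c0 Ω η.1, by rw [← map_pow, η.2, _root_.map_one]⟩
  invFun η := ⟨(picXEquiv c0 Ω).symm η.1, by rw [← map_pow, η.2, _root_.map_one]⟩
  left_inv η := Subtype.ext ((picXEquiv c0 Ω).symm_apply_apply η.1)
  right_inv η := Subtype.ext ((picXEquiv c0 Ω).apply_symm_apply η.1)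

/-- Multiplicative `n`-torsion of a commutative group versus additive `n`-torsion of `Additive`. -/
def additiveTorsionEquiv (G : Type*) [CommGroup G] (n : ℕ) :
    {x : Additive G // n • x = 0} ≃ {η : G // η ^ n = 1} where
  toFun x := ⟨Additive.toMul x.1, by
    have := congrArg Additive.toMul x.2
    rwa [toMul_nsmul, toMul_zero] at this⟩
  invFun η := ⟨Additive.ofMul η.1, by
    apply Additive.toMul.injective
    rw [toMul_nsmul, toMul_ofMul, toMul_zero, η.2]⟩
  left_inv _ := rfl
  right_inv _ := rfl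

/-! ### The count -/

section Count

variable {c0} [IsAlgClosed Ω]
  [IsDedekindDomain (Ω ⊗[W] B0)] [IsDedekindDomain (Ω ⊗[W] B1)] [IsDomain (Ω ⊗[W] B01)]
  {F : Type u} [Field F] [Algebra Ω F]
  [Algebra (Ω ⊗[W] B0) F] [Algebra (Ω ⊗[W] B1) F] [Algebra (Ω ⊗[W] B01) F]
  [IsScalarTower (Ω ⊗[W] B0) (Ω ⊗[W] B01) F] [IsScalarTower (Ω ⊗[W] B1) (Ω ⊗[W] B01) F]
  [IsScalarTower Ω (Ω ⊗[W] B0) F] [IsScalarTower Ω (Ω ⊗[W] B1) F]
  [IsFractionRing (Ω ⊗[W] B0) F] [IsFractionRing (Ω ⊗[W] B1) F]

/-- **(T2), the count.**  The `n`-torsion of the hub Picard group `Pic X_Ω` has as many elements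
as the `n`-torsion of `Pic0` of the function field of `X_Ω`. -/
theorem card_torsion_picX (hfp : c0.FiniteProjOverLine)
    (hcov : ∀ v : Place Ω F, Contains v (Ω ⊗[W] B0) ∨ Contains v (Ω ⊗[W] B1))
    (hdeg : ∀ v : Place Ω F, v.deg = 1) {n : ℕ} (hn : 0 < n) :
    Nat.card {η : PicX c0 Ω // η ^ n = 1} = Nat.card (Pic0.torsion Ω F n) := by
  rw [Fermat.Agent.AV.PicBridge84.Torsion.card_torsion_eq (c := c0.baseChange Ω)
    (curveHyp Ω hfp) hcov hdeg hn]
  exact Nat.card_congr (torsionEquiv c0 Ω n)

/-- The additive form (`Atop = Additive (PicX c0 ℚ̄_p)` in `T1B/Local66/Union`). -/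
theorem card_torsion_additive (hfp : c0.FiniteProjOverLine)
    (hcov : ∀ v : Place Ω F, Contains v (Ω ⊗[W] B0) ∨ Contains v (Ω ⊗[W] B1))
    (hdeg : ∀ v : Place Ω F, v.deg = 1) {n : ℕ} (hn : 0 < n) :
    Nat.card {x : Additive (PicX c0 Ω) // n • x = 0} = Nat.card (Pic0.torsion Ω F n) := by
  rw [← card_torsion_picX Ω hfp hcov hdeg hn]
  exact Nat.card_congr (additiveTorsionEquiv (PicX c0 Ω) n)

end Count

end Fermat.Agent.MAZ.TorsCmp40
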